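import Mathlib

/-!
# The induction of Brouwer and Schrijver

Partitions of the first `l` points with empty parts allowed, in which a set of size `s` occurs
`C(n - l, k - s)` times, extend to the next point by a marriage argument.
-/

set_option autoImplicit false

noncomputable section

namespace FA.Baranyai

open Finset

variable {M m k l : ℕ}

/-- Where the given part occurs. -/
def occurrences (P : Fin M → Fin m → Finset ℕ) (S : Finset ℕ) : Finset (Fin M × Fin m) :=
  {p | P p.1 p.2 = S}

/-- The state after `l` points. -/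
structure Stage (n k l : ℕ) (P : Fin M → Fin m → Finset ℕ) : Prop where
  sub : ∀ i j, P i j ⊆ range l
  small : ∀ i j, #(P i j) ≤ k
  cover : ∀ i, ∀ x < l, ∃! j, x ∈ P i j
  count : ∀ S ⊆ range l, #S ≤ k → #(occurrences P S) = (n - l).choose (k - #S)

theorem mul_choose_pred {a b : ℕ} (ha : 0 < a) (hb : 0 < b) :
    a * b.choose a = b * (b - 1).choose (a - 1) := by
  obtain ⟨a, rfl⟩ : ∃ c, a = c + 1 := ⟨a - 1, by omega⟩
  obtain ⟨b, rfl⟩ : ∃ c, b = c + 1 := ⟨b - 1, by omega⟩
  rw [mul_comm, Nat.add_sub_cancel, Nat.add_sub_cancel]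
  exact (Nat.add_one_mul_choose_eq b a).symm

variable {P : Fin M → Fin m → Finset ℕ}

theorem stage_zero (hk : 0 < k) (hm : 0 < m) (hM : M = (m * k - 1).choose (k - 1)) :
    Stage (m * k) k 0 (fun (_ : Fin M) (_ : Fin m) => ∅) := by
  refine ⟨fun _ _ => empty_subset _, fun _ _ => Nat.zero_le _,
    fun _ x hx => absurd hx (Nat.not_lt_zero x), fun S hS _ => ?_⟩
  obtain rfl : S = ∅ := subset_empty.1 (by simpa using hS)
  have h := mul_choose_pred hk (Nat.mul_pos hm hk)
  rw [← hM, show m * k * M = k * (M * m) by ring] at h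
  simp [occurrences, Nat.eq_of_mul_eq_mul_left hk h]

/-- The deficiencies of one partition. -/
theorem sum_deficiency {n : ℕ} (h : Stage n k l P) (hn : n = m * k) (i : Fin M) :
    ∑ j, (k - #(P i j)) = n - l := by
  have hc : ∑ j, #(P i j) = l := by
    rw [← card_biUnion fun a _ b _ hab => disjoint_left.2 fun x hxa hxb => hab <|
      (h.cover i x (mem_range.1 (h.sub i a hxa))).unique hxa hxb]
    refine Eq.trans (congrArg card ?_) (card_range l)
    ext x
    simp only [mem_biUnion, mem_univ, true_and, mem_range]
    exact ⟨fun ⟨j, hj⟩ => mem_range.1 (h.sub i j hj), fun hx => (h.cover i x hx).exists⟩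
  rw [sum_tsub_distrib _ fun j _ => h.small i j, hc, sum_const, card_univ, Fintype.card_fin,
    smul_eq_mul, hn]

/-- One more point. -/
theorem stage_succ {n : ℕ} (h : Stage n k l P) (hn : n = m * k) (hl : l < n) :
    ∃ P' : Fin M → Fin m → Finset ℕ, Stage n k (l + 1) P' := by
  classical
  set U := (range l).powerset.filter fun S => #S < k
  set T : Finset ℕ → ℕ := fun S => (n - l - 1).choose (k - #S - 1)
  set D := U.sigma fun S => range (T S) with hD
  have hT : ∀ S ∈ U, (k - #S) * #(occurrences P S) = (n - l) * T S := fun S hS => by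
    obtain ⟨hS1, hS2⟩ := mem_filter.1 hS
    rw [h.count S (mem_powerset.1 hS1) hS2.le]
    exact mul_choose_pred (by omega) (by omega)
  let cand : Fin M → Finset ((_ : Finset ℕ) × ℕ) := fun i =>
    D.filter fun d => ∃ j, P i j = d.1
  -- the weight of an assignment
  have hweight : ∀ X : Finset (Fin M),
      (n - l) * #X ≤ (n - l) * #(X.biUnion cand) := by
    intro X
    set N := U.filter fun S => ∃ i ∈ X, ∃ j, P i j = S with hN
    have hbi : X.biUnion cand = N.sigma fun S => range (T S) := by
      ext d
      simp only [cand, hD, hN, mem_biUnion, mem_filter, mem_sigma]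
      exact ⟨fun ⟨i, hi, ⟨hd, hd'⟩, hj⟩ => ⟨⟨hd, i, hi, hj⟩, hd'⟩,
        fun ⟨⟨hd, i, hi, hj⟩, hd'⟩ => ⟨i, hi, ⟨hd, hd'⟩, hj⟩⟩
    rw [hbi, card_sigma, mul_sum]
    simp only [card_range]
    calc (n - l) * #X = ∑ i ∈ X, ∑ j, (k - #(P i j)) := by
          rw [sum_congr rfl fun i _ => sum_deficiency h hn i, sum_const, smul_eq_mul, mul_comm]
      _ = ∑ p ∈ X ×ˢ univ, (k - #(P p.1 p.2)) :=
          (sum_product X univ fun p => k - #(P p.1 p.2)).symm
      _ = ∑ p ∈ (X ×ˢ univ).filter (fun p => P p.1 p.2 ∈ N), (k - #(P p.1 p.2)) := by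
          refine (sum_filter_of_ne fun p hp hne => ?_).symm
          exact mem_filter.2 ⟨mem_filter.2 ⟨mem_powerset.2 (h.sub _ _), by omega⟩,
            p.1, (mem_product.1 hp).1, p.2, rfl⟩
      _ ≤ ∑ p ∈ univ.filter (fun p : Fin M × Fin m => P p.1 p.2 ∈ N), (k - #(P p.1 p.2)) :=
          sum_le_sum_of_subset_of_nonneg
            (fun p hp => mem_filter.2 ⟨mem_univ _, (mem_filter.1 hp).2⟩)
            fun _ _ _ => Nat.zero_le _
      _ = ∑ S ∈ N, (n - l) * T S := by
          rw [← sum_fiberwise_of_maps_to (g := fun p : Fin M × Fin m => P p.1 p.2) (t := N)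
            fun p hp => (mem_filter.1 hp).2]
          refine sum_congr rfl fun S hS => ?_
          rw [← hT S (mem_filter.1 hS).1, filter_filter]
          rw [sum_congr rfl (g := fun _ => k - #S) fun p hp => by rw [(mem_filter.1 hp).2.2],
            sum_const, smul_eq_mul, mul_comm]
          congr 2
          ext p
          simp only [mem_filter, mem_univ, true_and, occurrences]
          exact ⟨fun hp => hp.2, fun hp => ⟨hp ▸ hS, hp⟩⟩
  have hnl : 0 < n - l := Nat.sub_pos_of_lt hl
  obtain ⟨f, hf, hfc⟩ := (all_card_le_biUnion_card_iff_exists_injective cand).1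
    fun X => Nat.le_of_mul_le_mul_left (hweight X) hnl
  have hfD : ∀ i, f i ∈ D := fun i => (mem_filter.1 (hfc i)).1
  have hcardD : #D = M := by
    have e : (n - l) * #D = (n - l) * M := by
      rw [hD, card_sigma, mul_sum]
      simp only [card_range]
      rw [← sum_congr rfl hT]
      calc ∑ S ∈ U, (k - #S) * #(occurrences P S)
          = ∑ S ∈ (range l).powerset, (k - #S) * #(occurrences P S) := by
            refine sum_filter_of_ne fun S _ hne => ?_
            by_contra hk
            exact hne (by rw [Nat.sub_eq_zero_of_le (not_lt.1 hk), zero_mul])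
        _ = ∑ p : Fin M × Fin m, (k - #(P p.1 p.2)) := by
            rw [← sum_fiberwise_of_maps_to (g := fun p : Fin M × Fin m => P p.1 p.2)
              (t := (range l).powerset) fun p _ => mem_powerset.2 (h.sub _ _)]
            refine sum_congr rfl fun S _ => ?_
            rw [sum_congr rfl (g := fun _ => k - #S) fun p hp => by rw [(mem_filter.1 hp).2],
              sum_const, smul_eq_mul, mul_comm]
            rfl
        _ = (n - l) * M := by
            rw [Fintype.sum_prod_type, sum_congr rfl fun i _ => sum_deficiency h hn i, sum_const,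
              card_univ, Fintype.card_fin, smul_eq_mul, mul_comm]
    exact Nat.eq_of_mul_eq_mul_left hnl e
  have himage : univ.image f = D := eq_of_subset_of_card_le
    (fun d hd => by obtain ⟨i, -, rfl⟩ := mem_image.1 hd; exact hfD i)
    (by rw [card_image_of_injective _ hf, card_univ, Fintype.card_fin, hcardD])
  have hassigned : ∀ S ∈ U, #(univ.filter fun i => (f i).1 = S) = T S := by
    intro S hS
    rw [← card_range (T S), ← card_image_of_injective (univ.filter fun i => (f i).1 = S) hf,
      ← card_image_of_injective (range (T S)) (f := Sigma.mk (β := fun _ : Finset ℕ => ℕ) S)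
        sigma_mk_injective]
    congr 1
    ext d
    simp only [mem_image, mem_filter, mem_univ, true_and]
    constructor
    · rintro ⟨i, hi, rfl⟩
      exact ⟨(f i).2, hi ▸ (mem_sigma.1 (hfD i)).2, Sigma.ext hi.symm HEq.rfl⟩
    · rintro ⟨c, hc, rfl⟩
      have : (⟨S, c⟩ : (_ : Finset ℕ) × ℕ) ∈ univ.image f :=
        himage.symm ▸ mem_sigma.2 ⟨hS, hc⟩
      obtain ⟨i, -, hi⟩ := mem_image.1 this
      exact ⟨i, by rw [hi], hi⟩
  choose g hg using fun i => (mem_filter.1 (hfc i)).2
  have hfU : ∀ i, (f i).1 ∈ U := fun i => (mem_sigma.1 (hfD i)).1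
  have hlP : ∀ i j, l ∉ P i j := fun i j hx => absurd (mem_range.1 (h.sub i j hx)) (lt_irrefl l)
  refine ⟨fun i j => if j = g i then insert l (P i j) else P i j, ⟨fun i j => ?_, fun i j => ?_,
    fun i x hx => ?_, fun S hS hSk => ?_⟩⟩
  · have := (h.sub i j).trans (range_mono l.le_succ)
    split_ifs
    · exact insert_subset (mem_range.2 l.lt_succ_self) this
    · exact this
  · split_ifs with hj
    · rw [card_insert_of_notMem (hlP i j), hj, hg i]
      exact (mem_filter.1 (hfU i)).2
    · exact h.small i j
  · rcases Nat.lt_succ_iff_lt_or_eq.1 hx with hx | rfl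
    · obtain ⟨j, hj, huniq⟩ := h.cover i x hx
      refine ⟨j, by dsimp only; split_ifs <;> simp [hj], fun j' hj' => huniq j' ?_⟩
      dsimp only at hj'
      split_ifs at hj' with e
      · exact (mem_insert.1 hj').resolve_left hx.ne
      · exact hj'
    · refine ⟨g i, by simp, fun j' hj' => ?_⟩
      by_contra hne
      simp only [if_neg hne] at hj'
      exact hlP i j' hj'
  · by_cases hlS : l ∈ S
    · have hS' : S.erase l ∈ U := mem_filter.2 ⟨mem_powerset.2 fun x hx =>
        mem_range.2 (lt_of_le_of_ne (Nat.le_of_lt_succ (mem_range.1 (hS (mem_of_mem_erase hx))))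
          (ne_of_mem_erase hx)), by
        have := card_pos.2 ⟨l, hlS⟩
        rw [card_erase_of_mem hlS]; omega⟩
      have h2 := hassigned _ hS'
      simp only [T, card_erase_of_mem hlS] at h2
      have hpos := card_pos.2 ⟨l, hlS⟩
      rw [show n - l - 1 = n - (l + 1) by omega,
        show k - (#S - 1) - 1 = k - #S by omega] at h2
      rw [← h2]
      refine card_bij (fun p _ => p.1) (fun p hp => ?_) (fun p hp q hq hpq => ?_) fun i hi => ?_
      · simp only [occurrences, mem_filter, mem_univ, true_and] at hp ⊢
        split_ifs at hp with e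
        · rw [← hp, erase_insert (hlP _ _), e, hg]
        · exact absurd (hp ▸ hlS) (hlP _ _)
      · simp only [occurrences, mem_filter, mem_univ, true_and] at hp hq
        split_ifs at hp with e
        · split_ifs at hq with e'
          · exact Prod.ext hpq (e.trans (hpq ▸ e'.symm))
          · exact absurd (hq ▸ hlS) (hlP _ _)
        · exact absurd (hp ▸ hlS) (hlP _ _)
      · simp only [mem_filter, mem_univ, true_and] at hi
        refine ⟨(i, g i), ?_, rfl⟩
        simp [occurrences, hg, hi, insert_erase hlS]
    · have hSl : S ⊆ range l := fun x hx => mem_range.2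
        (lt_of_le_of_ne (Nat.le_of_lt_succ (mem_range.1 (hS hx))) fun e => hlS (e ▸ hx))
      have h1 : occurrences (fun i j => if j = g i then insert l (P i j) else P i j) S =
          occurrences P S \ ((univ.filter fun i => (f i).1 = S).image fun i => (i, g i)) := by
        ext ⟨i, j⟩
        simp only [occurrences, mem_filter, mem_univ, true_and, mem_sdiff, mem_image,
          Prod.mk.injEq]
        by_cases hj : j = g i
        · subst hj
          rw [if_pos rfl]
          refine iff_of_false (fun e => hlS (e ▸ mem_insert_self _ _)) fun ⟨e, hne⟩ => ?_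
          exact hne ⟨i, by rw [← hg, e], rfl, rfl⟩
        · rw [if_neg hj]
          exact ⟨fun e => ⟨e, fun ⟨a, _, e1, e2⟩ => hj (by rw [← e1, e2])⟩, And.left⟩
      have hsub : ((univ.filter fun i => (f i).1 = S).image fun i => (i, g i)) ⊆
          occurrences P S := fun p hp => by
        obtain ⟨i, hi, rfl⟩ := mem_image.1 hp
        simp only [occurrences, mem_filter, mem_univ, true_and] at hi ⊢
        rw [hg, hi]
      rw [h1, card_sdiff_of_subset hsub, h.count S hSl hSk,
        card_image_of_injective _ (fun a b e => congrArg Prod.fst e)]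
      rcases hSk.lt_or_eq with hlt | heq
      · rw [hassigned S (mem_filter.2 ⟨mem_powerset.2 hSl, hlt⟩)]
        obtain ⟨b, hb⟩ : ∃ b, k - #S = b + 1 := ⟨k - #S - 1, by omega⟩
        simp only [T, hb, Nat.add_sub_cancel, show n - l = n - (l + 1) + 1 by omega,
          Nat.choose_succ_succ']
        omega
      · rw [filter_false_of_mem fun i _ e => by
          have := (mem_filter.1 (hfU i)).2
          rw [e] at this
          omega]
        simp [heq]

theorem exists_stage (hk : 0 < k) (hm : 0 < m) (hM : M = (m * k - 1).choose (k - 1)) :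
    ∀ l ≤ m * k, ∃ P : Fin M → Fin m → Finset ℕ, Stage (m * k) k l P := by
  intro l
  induction l with
  | zero => exact fun _ => ⟨_, stage_zero hk hm hM⟩
  | succ l ih =>
    intro hl
    obtain ⟨P, hP⟩ := ih (by omega)
    exact stage_succ hP rfl (by omega)

end FA.Baranyai
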