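import Fermat.Agent.Baranyai.Basic

/-!
# Baranyai's theorem

After all points are placed each part has `k` elements and each `k`-set occurs once.
-/

set_option autoImplicit false

noncomputable section

namespace FA.Baranyai

open Finset

/-- The classes on any finite type. -/
theorem exists_classes {α : Type*} [Fintype α] [DecidableEq α] {k : ℕ} (hk : 0 < k)
    (hdvd : k ∣ Fintype.card α) (hpos : 0 < Fintype.card α) :
    ∃ P : Fin ((Fintype.card α - 1).choose (k - 1)) → Fin (Fintype.card α / k) → Finset α,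
      (∀ i j, #(P i j) = k) ∧ (∀ i x, ∃! j, x ∈ P i j) ∧
        ∀ S : Finset α, #S = k → ∃! p : _ × _, P p.1 p.2 = S := by
  classical
  obtain ⟨m, hn⟩ := hdvd
  have hdiv : Fintype.card α / k = m := by rw [hn, Nat.mul_div_cancel_left _ hk]
  rw [mul_comm] at hn
  rw [hdiv]
  have hm : 0 < m := Nat.pos_of_ne_zero fun h => by rw [h, zero_mul] at hn; omega
  obtain ⟨P, hP⟩ := exists_stage (M := (Fintype.card α - 1).choose (k - 1)) hk hm (by rw [hn])
    (m * k) le_rfl
  have hsize : ∀ i j, #(P i j) = k := fun i j => by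
    refine le_antisymm (hP.small i j) (not_lt.1 fun hlt => ?_)
    have h := hP.count _ (hP.sub i j) (hP.small i j)
    rw [Nat.sub_self, Nat.choose_eq_zero_of_lt (Nat.sub_pos_of_lt hlt), card_eq_zero] at h
    exact notMem_empty (i, j) (h ▸ by simp [occurrences])
  set e : α → ℕ := fun x => (Fintype.equivFin α x : ℕ)
  have he : Function.Injective e := Fin.val_injective.comp (Fintype.equivFin α).injective
  have hlt : ∀ x, e x < m * k := fun x => hn ▸ Fin.is_lt _
  let Q := fun i j => univ.filter fun x : α => e x ∈ P i j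
  have hQ : ∀ i j, (Q i j).image e = P i j := fun i j => by
    ext y
    simp only [Q, mem_image, mem_filter, mem_univ, true_and]
    refine ⟨fun ⟨x, hx, hxy⟩ => hxy ▸ hx, fun hy => ?_⟩
    have hy' := mem_range.1 (hP.sub i j hy)
    refine ⟨(Fintype.equivFin α).symm ⟨y, hn.symm ▸ hy'⟩, ?_⟩
    simp [e, hy]
  refine ⟨Q, fun i j => ?_, fun i x => ?_, fun S hS => ?_⟩
  · rw [← card_image_of_injective (Q i j) he, hQ, hsize]
  · obtain ⟨j, hj, huniq⟩ := hP.cover i (e x) (hlt x)
    exact ⟨j, by simp [Q, hj], fun j' hj' => huniq j' (by simpa [Q] using hj')⟩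
  · have hcard : #(S.image e) = k := by rw [card_image_of_injective _ he, hS]
    have h1 := hP.count (S.image e) (fun y hy => by
      obtain ⟨x, -, rfl⟩ := mem_image.1 hy
      exact mem_range.2 (hlt x)) hcard.le
    rw [hcard, Nat.sub_self, Nat.sub_self, Nat.choose_zero_right, card_eq_one] at h1
    obtain ⟨p, hp⟩ := h1
    have hiff : ∀ q : _ × _, Q q.1 q.2 = S ↔ q = p := fun q => by
      rw [← mem_singleton (a := p) (b := q), ← hp, occurrences, mem_filter]
      exact ⟨fun h => ⟨mem_univ _, by rw [← hQ, h]⟩,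
        fun h => Finset.image_injective he (by rw [hQ, h.2])⟩
    exact ⟨p, (hiff p).2 rfl, fun q hq => (hiff q).1 hq⟩

end FA.Baranyai
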